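import Fermat.Agent.DeligneSerre.Galois.HeckeFun
import Fermat.Agent.Kronecker.Congruence
import Fermat.Agent.FrobTrace.Global

/-!
# The congruence for the series of the translates
-/

set_option autoImplicit false
set_option linter.unusedSectionVars false
set_option linter.style.haveILetI false
set_option maxHeartbeats 800000
set_option synthInstance.maxHeartbeats 400000

noncomputable section

open FLTAgent.ModEq ModularCurve IsLocalRing

namespace FLTAgent.DeligneSerre

local notation "LL" => AlgebraicClosure ℚ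
local notation "GG" => (AlgebraicClosure ℚ ≃ₐ[ℚ] AlgebraicClosure ℚ)

section Phi

variable {R : Type*} [CommRing R] (q : ℕ) [NeZero q]

theorem coeffMap_phiSer {S : Type*} [CommRing S] (f : R →+* S) (ω : Rˣ) (y w : LaurentSeries R) :
    coeffMap f (phiSer q ω y w) =
      phiSer q (Units.map f.toMonoidHom ω) (coeffMap f y) (coeffMap f w) := by
  simp only [phiSer, map_mul, map_prod, coeffMap_qExpand, coeffMap_twist, map_pow]

theorem phiSer_mul (ω : Rˣ) (y y' w w' : LaurentSeries R) :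
    phiSer q ω (y * y') (w * w') = phiSer q ω y w * phiSer q ω y' w' := by
  simp only [phiSer, map_mul, Finset.prod_mul_distrib]
  ring

theorem pow_eq_of_cast_eq {G : Type*} [Monoid G] {ω : G} (hω : ω ^ q = 1) {a b : ℕ}
    (h : (a : ZMod q) = b) : ω ^ a = ω ^ b := by
  rw [pow_eq_pow_mod a hω, pow_eq_pow_mod b hω, (ZMod.natCast_eq_natCast_iff' a b q).1 h]

theorem phiSer_pow_gen {ω : Rˣ} (hω : ω ^ q = 1) {k : ℕ} (hk : k.Coprime q)
    (y w : LaurentSeries R) : phiSer q (ω ^ k) y w = phiSer q ω y w := by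
  simp only [phiSer]
  congr 1
  refine Fintype.prod_equiv (Units.mulLeft (ZMod.unitOfCoprime k hk)) _ _ fun j => ?_
  congr 2
  rw [← pow_mul]
  refine pow_eq_of_cast_eq q hω ?_
  rw [Nat.cast_mul, ZMod.natCast_zmod_val, ZMod.natCast_zmod_val]
  rfl

theorem twist_phiSer {ω : Rˣ} (hω : ω ^ q = 1) (y w : LaurentSeries R) :
    twist ω (phiSer q ω y w) = phiSer q ω y w := by
  simp only [phiSer, map_mul, map_prod, twist_twist]
  congr 1
  · rw [twist_qExpand, pow_mul, hω, one_pow, twist_one]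
  · refine Fintype.prod_equiv (Equiv.addLeft (1 : ZMod q)) _ _ fun j => ?_
    congr 2
    rw [← pow_succ']
    refine pow_eq_of_cast_eq q hω ?_
    rw [Nat.cast_succ, ZMod.natCast_zmod_val, ZMod.natCast_zmod_val, add_comm]
    rfl

theorem exists_descend_phiSer [IsDomain R] {ω : Rˣ} (hω : IsPrimitiveRoot ω q)
    (y w : LaurentSeries R) : ∃ Y, qExpand R q Y = phiSer q ω y w := by
  refine Mazur.exists_qExpand_eq fun k hk => ?_
  have h := congrArg (fun F : LaurentSeries R => F.coeff k) (twist_phiSer q hω.pow_eq_one y w)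
  simp only [twist_coeff] at h
  by_contra h0
  refine hk ((hω.zpow_eq_one_iff_dvd k).1 (Units.ext ?_))
  exact mul_right_cancel₀ h0 (h.trans (one_mul _).symm)

end Phi

section Congruence

variable {R k : Type*} [CommRing R] [IsDomain R] [Field k] (φ : R →+* k) (ℓ : ℕ) [Fact ℓ.Prime]
  [CharP k ℓ] [NeZero ℓ]

theorem red_phiSer {ω : Rˣ} (hω1 : φ ω = 1) (t : R →+* R)
    (ht : (frobenius k ℓ).comp (φ.comp t) = φ) {y w Y : LaurentSeries R}
    (hY : qExpand R ℓ Y = phiSer ℓ ω y w) :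
    coeffMap φ Y = coeffMap (frobenius k ℓ) (coeffMap φ y) * coeffMap φ (coeffMap t w) ^ ℓ := by
  refine qExpand_injective ℓ ?_
  have hu : Units.map φ.toMonoidHom ω = 1 := Units.ext hω1
  have hw : coeffMap φ w = coeffMap (frobenius k ℓ) (coeffMap φ (coeffMap t w)) := by
    rw [coeffMap_coeffMap, coeffMap_coeffMap, RingHom.comp_assoc, ht]
  rw [← coeffMap_qExpand, hY, coeffMap_phiSer, hu, phiSer]
  simp only [one_pow, twist_one, Finset.prod_const, Finset.card_univ, ZMod.card]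
  rw [map_mul, ← Kronecker.laurent_pow_char, Kronecker.laurent_pow_char ℓ (coeffMap φ (coeffMap t w)),
    ← hw, qExpand_qExpand, mul_comm]

theorem red_congruence {ω : Rˣ} (hω1 : φ ω = 1) (s t : R →+* R)
    (hs : φ.comp s = (frobenius k ℓ).comp φ) (ht : (frobenius k ℓ).comp (φ.comp t) = φ)
    {y y₁ w w₁ Y Y₁ : LaurentSeries R} (hY : qExpand R ℓ Y = phiSer ℓ ω y w)
    (hY₁ : qExpand R ℓ Y₁ = phiSer ℓ ω y₁ w₁) :
    coeffMap φ (Y * (coeffMap s y₁ * coeffMap t w₁ ^ ℓ)) =
      coeffMap φ (Y₁ * (coeffMap s y * coeffMap t w ^ ℓ)) := by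
  have hs' : ∀ z : LaurentSeries R,
      coeffMap φ (coeffMap s z) = coeffMap (frobenius k ℓ) (coeffMap φ z) := fun z => by
    rw [coeffMap_coeffMap, coeffMap_coeffMap, hs]
  simp only [map_mul, map_pow, red_phiSer φ ℓ hω1 t ht hY, red_phiSer φ ℓ hω1 t ht hY₁, hs']
  ring

theorem red_ne_zero {ω : Rˣ} (hω1 : φ ω = 1) (s t : R →+* R)
    (hs : φ.comp s = (frobenius k ℓ).comp φ) (ht : (frobenius k ℓ).comp (φ.comp t) = φ)
    {y w Y y' w' : LaurentSeries R} (hY : qExpand R ℓ Y = phiSer ℓ ω y w)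
    (hy : coeffMap φ y ≠ 0) (hw : coeffMap φ w ≠ 0) (hy' : coeffMap φ y' ≠ 0)
    (hw' : coeffMap φ w' ≠ 0) :
    coeffMap φ (Y * (coeffMap s y' * coeffMap t w' ^ ℓ)) ≠ 0 := by
  have hF : Function.Injective (coeffMap (frobenius k ℓ)) :=
    coeffMap_injective _ (frobenius_inj k ℓ)
  have ht' : ∀ {z : LaurentSeries R}, coeffMap φ z ≠ 0 → coeffMap φ (coeffMap t z) ≠ 0 :=
    fun {z} hz h0 => hz (by
      rw [show coeffMap φ z = coeffMap (frobenius k ℓ) (coeffMap φ (coeffMap t z)) by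
        rw [coeffMap_coeffMap, coeffMap_coeffMap, RingHom.comp_assoc, ht], h0, map_zero])
  simp only [map_mul, map_pow, red_phiSer φ ℓ hω1 t ht hY]
  refine mul_ne_zero (mul_ne_zero ((map_ne_zero_iff _ hF).2 hy) (pow_ne_zero _ (ht' hw)))
    (mul_ne_zero ?_ (pow_ne_zero _ (ht' hw')))
  rw [coeffMap_coeffMap, hs, ← coeffMap_coeffMap]
  exact (map_ne_zero_iff _ hF).2 hy'

end Congruence

section Decomposition

variable (V : ValuationSubring LL)

theorem smul_mem_of_decomposition {σ : GG} (hσ : σ ∈ V.decompositionSubgroup ℚ) (x : V) :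
    σ x ∈ V :=
  SetLike.coe_mem ((⟨σ, hσ⟩ : V.decompositionSubgroup ℚ) • x)

/-- An element of the decomposition group on the valuation ring. -/
def decHom {σ : GG} (hσ : σ ∈ V.decompositionSubgroup ℚ) : V →+* V :=
  ((σ : LL →+* LL).comp V.subtype).codRestrict V (smul_mem_of_decomposition V hσ)

theorem subtype_comp_decHom {σ : GG} (hσ : σ ∈ V.decompositionSubgroup ℚ) :
    V.subtype.comp (decHom V hσ) = (σ : LL →+* LL).comp V.subtype := rfl

theorem coeffMap_decHom {σ : GG} (hσ : σ ∈ V.decompositionSubgroup ℚ) (y : LaurentSeries V) :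
    coeffMap V.subtype (coeffMap (decHom V hσ) y) =
      coeffMap (σ : LL →+* LL) (coeffMap V.subtype y) := by
  rw [coeffMap_coeffMap, coeffMap_coeffMap, subtype_comp_decHom]

theorem residue_decHom_inertia {σ : GG} (hσ : σ ∈ V.inertiaSubgroupIn ℚ) :
    ∃ h : σ ∈ V.decompositionSubgroup ℚ, (residue V).comp (decHom V h) = residue V := by
  obtain ⟨g, hg, rfl⟩ := hσ
  refine ⟨g.2, RingHom.ext fun x => ?_⟩
  have h1 : MulSemiringAction.toRingAut (V.decompositionSubgroup ℚ) (ResidueField V) g = 1 := hg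
  exact DFunLike.congr_fun h1 (residue V x)

variable (ℓ : ℕ) [Fact ℓ.Prime] [CharP (ResidueField V) ℓ]

theorem residue_decHom_frobenius {σ : GG} (hσ : V.IsFrobeniusAt σ ℓ) :
    (residue V).comp (decHom V hσ.mem_decompositionSubgroup) =
      (frobenius (ResidueField V) ℓ).comp (residue V) :=
  RingHom.ext fun x => hσ.smul_residue_eq (residue V x)

theorem residue_decHom_frobenius_inv {σ : GG} (hσ : V.IsFrobeniusAt σ ℓ) :
    (frobenius (ResidueField V) ℓ).comp
      ((residue V).comp (decHom V (inv_mem hσ.mem_decompositionSubgroup))) = residue V := by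
  rw [← RingHom.comp_assoc, ← residue_decHom_frobenius V ℓ hσ, RingHom.comp_assoc]
  refine RingHom.ext fun x => congrArg (residue V) (Subtype.ext ?_)
  exact AlgEquiv.apply_symm_apply σ (x : LL)

theorem exists_root_in (ξ : LLˣ) (hξ : IsPrimitiveRoot ξ ℓ) :
    ∃ ω : Vˣ, Units.map V.subtype.toMonoidHom ω = ξ ∧ IsPrimitiveRoot ω ℓ ∧ residue V ω = 1 := by
  have hℓ : ℓ ≠ 0 := (Fact.out : ℓ.Prime).ne_zero
  have h1 : (ξ : LL) ^ ℓ = 1 := by rw [← Units.val_pow_eq_pow_val, hξ.pow_eq_one, Units.val_one]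
  have h2 : ((ξ⁻¹ : LLˣ) : LL) ^ ℓ = 1 := by
    rw [← Units.val_pow_eq_pow_val, hξ.inv.pow_eq_one, Units.val_one]
  let ω : Vˣ := ⟨⟨ξ, Kronecker.mem_of_pow_eq_one V hℓ h1⟩,
    ⟨(ξ⁻¹ : LLˣ), Kronecker.mem_of_pow_eq_one V hℓ h2⟩, Subtype.ext ξ.mul_inv,
    Subtype.ext ξ.inv_mul⟩
  have hω : Units.map V.subtype.toMonoidHom ω = ξ := Units.ext rfl
  refine ⟨ω, hω, IsPrimitiveRoot.of_map_of_injective (f := Units.map V.subtype.toMonoidHom)
    (hω.symm ▸ hξ) (Units.map_injective Subtype.val_injective), ?_⟩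
  refine sub_eq_zero.1 (pow_eq_zero_iff hℓ |>.1 ?_)
  rw [sub_pow_char, one_pow, ← map_pow, show ((ω : V) ^ ℓ) = 1 from Subtype.ext h1, map_one,
    sub_self]

end Decomposition

end FLTAgent.DeligneSerre
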