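import Fermat.Agent.DeligneSerre.Galois.HeckeFun

/-!
# Classes of functions with divisor divisible by `n` and their Galois action
-/

set_option autoImplicit false
set_option linter.unusedSectionVars false
set_option linter.style.haveILetI false
set_option maxHeartbeats 800000
set_option synthInstance.maxHeartbeats 400000

noncomputable section

open ModularCurve AlgebraicCurve UpperHalfPlane
open scoped MatrixGroups

namespace FLTAgent.DeligneSerre

open FLTAgent.X0Fn (Hol comp_smul_mdiff)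
open FLTAgent.PeriodHecke (Hpar mapHpar HeckeIdx)
open FLTAgent.TorsionHom (rootHom)

local notation "LL" => AlgebraicClosure ℚ
local notation "GG" => (AlgebraicClosure ℚ ≃ₐ[ℚ] AlgebraicClosure ℚ)
local notation "Cx" => Additive ℂˣ

variable {M : ℕ} [NeZero M] {κ : LL →+* ℂ} (D : Field1 M κ)

/-! ### The Galois action on the field -/

theorem coeffMap_symm_apply (σ τ : GG) (h : σ * τ = 1) (x : LaurentSeries LL) :
    coeffMap (σ : LL →+* LL) (coeffMap (τ : LL →+* LL) x) = x := by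
  rw [coeffMap_coeffMap, show (σ : LL →+* LL).comp (τ : LL →+* LL) = RingHom.id LL from
    RingHom.ext fun a => AlgEquiv.congr_fun h a, coeffMap_id]

/-- A Galois element on the field, acting on coefficients. -/
def galF (σ : GG) : D.F ≃+* D.F where
  toFun x := ⟨_, D.stable σ x x.2⟩
  invFun x := ⟨_, D.stable σ⁻¹ x x.2⟩
  left_inv _ := Subtype.ext (coeffMap_symm_apply σ⁻¹ σ (inv_mul_cancel σ) _)
  right_inv _ := Subtype.ext (coeffMap_symm_apply σ σ⁻¹ (mul_inv_cancel σ) _)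
  map_mul' _ _ := Subtype.ext (map_mul _ _ _)
  map_add' _ _ := Subtype.ext (map_add _ _ _)

@[simp] theorem coe_galF (σ : GG) (x : D.F) :
    (galF D σ x : LaurentSeries LL) = coeffMap (σ : LL →+* LL) (x : LaurentSeries LL) := rfl

theorem galF_one (x : D.F) : galF D 1 x = x := Subtype.ext (by
  rw [coe_galF]
  exact coeffMap_id _)

theorem galF_mul (σ τ : GG) (x : D.F) : galF D (σ * τ) x = galF D σ (galF D τ x) := Subtype.ext (by
  simp only [coe_galF, coeffMap_coeffMap]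
  rfl)

/-- A Galois element as a semilinear automorphism. -/
def galAut (σ : GG) : SemilinearAut LL D.F :=
  ⟨(galF D σ, σ.toRingEquiv), fun a => Subtype.ext (coeffMap_algebraMap (σ : LL →+* LL) a)⟩

variable (n : ℕ)

/-- The divisor of `x` is divisible by `n`. -/
def DivN (x : D.F) : Prop := x ≠ 0 ∧ ∀ v : Place LL D.F, (n : ℤ) ∣ v.ord x

theorem DivN.gal {x : D.F} (h : DivN D n x) (σ : GG) : DivN D n (galF D σ x) := by
  refine ⟨(map_ne_zero_iff _ (galF D σ).injective).2 h.1, fun v => ?_⟩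
  have e := SemilinearAut.ord_smul (galAut D σ) ((galAut D σ)⁻¹ • v) x
  rw [smul_inv_smul] at e
  exact (e : v.ord (galF D σ x) = _) ▸ h.2 _

/-- `x` has a root transforming by the character attached to `φ`. -/
def RepN [NeZero n] (x : D.F) (φ : Hpar (CongruenceSubgroup.Gamma1 M) (ZMod n)) : Prop :=
  DivN D n x ∧ IsCharFn1 κ n (x : LaurentSeries LL) (mapHpar (rootHom n) φ).1

variable {D n}

theorem resPM_add {A : Type*} [AddCommGroup A] (χ χ' : Additive (Tors.gammaPM M) →+ A) :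
    Tors.resPM (χ + χ') = Tors.resPM χ + Tors.resPM χ' := rfl

theorem IsCharFn1.mulH {x y : LaurentSeries LL} {χ χ' : Additive (CongruenceSubgroup.Gamma1 M) →+ Cx}
    (hχ : χ ∈ Hpar _ Cx) (hχ' : χ' ∈ Hpar _ Cx) (h : IsCharFn1 κ n x χ) (h' : IsCharFn1 κ n y χ') :
    IsCharFn1 κ n (x * y) (χ + χ') := by
  have := Tors.isCharFn1_of_isCharFn
    ((Tors.isCharFn_of_isCharFn1 hχ h).mul (Tors.isCharFn_of_isCharFn1 hχ' h'))
  rwa [resPM_add, Tors.resPM_extPM, Tors.resPM_extPM] at this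

variable [NeZero n] (hK : KummerTheory D)
  {φ ψ : Hpar (CongruenceSubgroup.Gamma1 M) (ZMod n)} {x y : D.F}

theorem mapHpar_root_injective1 :
    Function.Injective (mapHpar (Γ := CongruenceSubgroup.Gamma1 M) (rootHom n)) :=
  Tors.mapHpar_root_injective n

theorem RepN.ne_zero (h : RepN D n x φ) : x ≠ 0 := h.1.1

theorem RepN.unique (h : RepN D n x φ) (h' : RepN D n x ψ) : φ = ψ := by
  refine mapHpar_root_injective1 (Subtype.ext ?_)
  have hx : (x : LaurentSeries LL) ≠ 0 := fun e => h.ne_zero (Subtype.ext e)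
  have h1 := Tors.isCharFn_of_isCharFn1 (mapHpar (rootHom n) φ).2 h.2
  have h2 := Tors.isCharFn_of_isCharFn1 (mapHpar (rootHom n) ψ).2 h'.2
  rw [← Tors.resPM_extPM (mapHpar (rootHom n) φ).2,
    ← Tors.resPM_extPM (mapHpar (rootHom n) ψ).2, h1.unique (NeZero.ne n) hx h2]

include hK in
theorem repN_of_char (hx : x ≠ 0) (h : IsCharFn1 κ n (x : LaurentSeries LL) (mapHpar (rootHom n) φ).1) :
    RepN D n x φ :=
  ⟨⟨hx, (hK.1 n (NeZero.ne n) x hx).2 ⟨_, (mapHpar (rootHom n) φ).2, h⟩⟩, h⟩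

theorem exists_repN (h : DivN D n x) : ∃ φ, RepN D n x φ := by
  obtain ⟨χ, hχ, hn, hc⟩ := (Tors.isModel D).exists_isCharFn h.1 (NeZero.ne n) h.2
  obtain ⟨φ, hφ⟩ := Tors.exists_mapHpar_root n (χ := ⟨Tors.resPM χ, Tors.resPM_mem hχ⟩)
    (Subtype.ext (by
      exact AddMonoidHom.ext fun g => (DFunLike.congr_fun hn _ :)))
  exact ⟨φ, h, by rw [hφ]; exact Tors.isCharFn1_of_isCharFn hc⟩

include hK in
theorem exists_repN_of (φ : Hpar (CongruenceSubgroup.Gamma1 M) (ZMod n)) :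
    ∃ x, RepN D n x φ := by
  obtain ⟨x, hx, h⟩ := hK.2 n (NeZero.ne n) _ (mapHpar (rootHom n) φ).2
    (congrArg Subtype.val (Tors.nsmul_mapHpar_root n φ))
  exact ⟨x, repN_of_char hK hx h⟩

include hK in
theorem RepN.mul (h : RepN D n x φ) (h' : RepN D n y ψ) : RepN D n (x * y) (φ + ψ) := by
  refine repN_of_char hK (mul_ne_zero h.ne_zero h'.ne_zero) ?_
  rw [map_add, IntermediateField.coe_mul]
  exact IsCharFn1.mulH (mapHpar (rootHom n) φ).2 (mapHpar (rootHom n) ψ).2 h.2 h'.2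

include hK in
theorem repN_pow {w : D.F} (hw : w ≠ 0) : RepN D n (w ^ n) 0 := by
  refine repN_of_char hK (pow_ne_zero _ hw) ?_
  rw [map_zero]
  exact Tors.isCharFn1_of_isCharFn (Tors.isCharFn_power (Tors.isModel D) (NeZero.ne n) w)

include hK in
theorem repN_algebraMap {a : LL} (ha : a ≠ 0) : RepN D n (algebraMap LL D.F a) 0 := by
  obtain ⟨d, hd⟩ := IsAlgClosed.exists_pow_nat_eq a (Nat.pos_of_ne_zero (NeZero.ne n))
  rw [← hd, map_pow]
  exact repN_pow hK ((map_ne_zero _).2 fun h0 => ha (by rw [← hd, h0, zero_pow (NeZero.ne n)]))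

include hK in
theorem RepN.mul_pow (h : RepN D n x φ) {w : D.F} (hw : w ≠ 0) : RepN D n (x * w ^ n) φ := by
  simpa using h.mul hK (repN_pow hK hw)

include hK in
theorem RepN.smul_const (h : RepN D n x φ) {a : LL} (ha : a ≠ 0) :
    RepN D n (algebraMap LL D.F a * x) φ := by
  simpa using (repN_algebraMap hK ha).mul hK h

include hK in
theorem RepN.pow (h : RepN D n x φ) : ∀ m : ℕ, RepN D n (x ^ m) (m • φ)
  | 0 => by simpa using repN_pow hK (w := (1 : D.F)) one_ne_zero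
  | m + 1 => by rw [pow_succ, succ_nsmul]; exact (RepN.pow h m).mul hK h

include hK in
theorem RepN.div (h : RepN D n x φ) (h' : RepN D n y ψ) : RepN D n (x / y) (φ - ψ) := by
  have hd : DivN D n y⁻¹ :=
    ⟨inv_ne_zero h'.ne_zero, fun v => by rw [v.ord_inv]; exact dvd_neg.2 (h'.1.2 v)⟩
  obtain ⟨θ, hθ⟩ := exists_repN hd
  have h1 := h'.mul hK hθ
  rw [mul_inv_cancel₀ h'.ne_zero] at h1
  have h2 : RepN D n (1 : D.F) 0 := by simpa using repN_pow hK (w := (1 : D.F)) one_ne_zero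
  have h3 : θ = -ψ := eq_neg_of_add_eq_zero_right (h1.unique h2)
  rw [div_eq_mul_inv, sub_eq_add_neg, ← h3]
  exact h.mul hK hθ

theorem RepN.exists_pow (h : RepN D n x 0) : ∃ w : D.F, w ≠ 0 ∧ w ^ n = x := by
  have hx : (x : LaurentSeries LL) ≠ 0 := fun e => h.ne_zero (Subtype.ext e)
  have h1 := Tors.isCharFn_of_isCharFn1 (mapHpar (rootHom n) (0 : Hpar _ (ZMod n))).2 h.2
  have e : Tors.extPM _ (mapHpar (rootHom n)
      (0 : Hpar (CongruenceSubgroup.Gamma1 M) (ZMod n))).2 = 0 := by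
    refine AddMonoidHom.ext fun γ => ?_
    show rootHom n ((0 : Hpar (CongruenceSubgroup.Gamma1 M) (ZMod n)).1 _) = 0
    rw [ZeroMemClass.coe_zero, AddMonoidHom.zero_apply, map_zero]
  rw [e] at h1
  obtain ⟨w, hw, hwn⟩ := (Tors.isModel D).exists_pow_eq hx (NeZero.ne n) h1
  refine ⟨⟨w, hw⟩, fun h0 => hx ?_, Subtype.ext hwn⟩
  rw [← hwn, show w = 0 from congrArg Subtype.val h0, zero_pow (NeZero.ne n)]

include hK in
theorem RepN.transfer (h : RepN D n x φ) (h' : RepN D n y φ) :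
    ∃ w : D.F, w ≠ 0 ∧ x = y * w ^ n := by
  have h1 := h.div hK h'
  rw [sub_self] at h1
  obtain ⟨w, hw, e⟩ := h1.exists_pow
  exact ⟨w, hw, by rw [e, mul_div_cancel₀ _ h'.ne_zero]⟩

/-! ### Diamonds and Hecke operators -/

include hK in
theorem RepN.dia (h : RepN D n x φ) (γ : CongruenceSubgroup.Gamma0 M) :
    RepN D n (D.dia γ x) (diamond M γ φ) := by
  refine repN_of_char hK ((map_ne_zero_iff _ (D.dia γ).injective).2 h.ne_zero) ?_
  obtain ⟨R, a, b, hab, hR, hc⟩ := h.2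
  obtain ⟨a', b', ha', hb', hab'⟩ := D.dia_represents γ x a b hab
  let R' : Hol :=
    ⟨fun τ => (R : ℍ → ℂ) ((γ : SL(2, ℤ)) • τ), comp_smul_mdiff R.2 (γ : SL(2, ℤ))⟩
  refine ⟨R', a', b', hab', funext fun τ => ?_, fun δ τ => ?_⟩
  · show (R : ℍ → ℂ) ((γ : SL(2, ℤ)) • τ) ^ n = (a' : ℍ → ℂ) τ * (b' : ℍ → ℂ) τ ^ (n - 1)
    rw [ha', hb']
    exact congrFun hR _
  · have h1 := hc (conjGamma1 M γ δ) ((γ : SL(2, ℤ)) • τ)
    show (R : ℍ → ℂ) ((γ : SL(2, ℤ)) • (δ : SL(2, ℤ)) • τ) =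
      ((rootHom n ((diamond M γ φ).1 (Additive.ofMul δ))).toMul : ℂˣ) *
        (R : ℍ → ℂ) ((γ : SL(2, ℤ)) • τ)
    rw [diamond_apply]
    refine Eq.trans ?_ h1
    show _ = (R : ℍ → ℂ) (((γ : SL(2, ℤ)) * δ * (γ : SL(2, ℤ))⁻¹) • (γ : SL(2, ℤ)) • τ)
    rw [← mul_smul, ← mul_smul, inv_mul_cancel_right]

include hK in
theorem RepN.hecke (h : RepN D n x φ) {q : ℕ} [Fact q.Prime] [NeZero q] (hq : ¬ q ∣ M) :
    ∃ z : D.F, qExpand LL q (z : LaurentSeries LL) = phiSer q (xi q κ) (x : LaurentSeries LL)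
        (D.dia (gammaLower q (coprime_of_not_dvd hq)) x : LaurentSeries LL) ∧
      RepN D n z ((heckeFam1 hq).heckePar φ) := by
  obtain ⟨z, hz, hc⟩ := exists_hecke hq D h.2
  refine ⟨z, hz, repN_of_char hK (fun h0 => ?_) ?_⟩
  · rw [h0, ZeroMemClass.coe_zero, map_zero, eq_comm, phiSer, mul_eq_zero,
      map_eq_zero_iff _ (qExpand_injective (q * q)), Finset.prod_eq_zero_iff] at hz
    rcases hz with hz | ⟨j, -, hz⟩
    · exact (map_ne_zero_iff _ (D.dia _).injective).2 h.ne_zero (Subtype.ext hz)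
    · have h1 := congrArg (ModEq.twist (xi q κ ^ j.val)⁻¹) hz
      rw [ModEq.twist_twist, inv_mul_cancel, ModEq.twist_one, map_zero] at h1
      exact h.ne_zero (Subtype.ext h1)
  · rw [← PeriodHecke.HeckeFamily.heckePar_mapHpar, PeriodHecke.HeckeFamily.coe_heckePar]
    exact hc

/-! ### The action -/

/-- The value of the action. -/
def actFun (σ : GG) (φ : Hpar (CongruenceSubgroup.Gamma1 M) (ZMod n)) :
    Hpar (CongruenceSubgroup.Gamma1 M) (ZMod n) :=
  (exists_repN ((exists_repN_of hK φ).choose_spec.1.gal D n σ)).choose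

theorem actFun_spec (σ : GG) (h : RepN D n x φ) : RepN D n (galF D σ x) (actFun hK σ φ) := by
  have h1 := (exists_repN ((exists_repN_of hK φ).choose_spec.1.gal D n σ)).choose_spec
  obtain ⟨w, hw, e⟩ := h.transfer hK (exists_repN_of hK φ).choose_spec
  rw [e, map_mul, map_pow]
  exact RepN.mul_pow hK h1 ((map_ne_zero_iff _ (galF D σ).injective).2 hw)

theorem actFun_eq (σ : GG) (h : RepN D n x φ) (h' : RepN D n (galF D σ x) ψ) :
    actFun hK σ φ = ψ := (actFun_spec hK σ h).unique h'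

/-- The action. -/
def actHom : GG →* AddMonoid.End (Hpar (CongruenceSubgroup.Gamma1 M) (ZMod n)) where
  toFun σ := AddMonoidHom.mk' (actFun hK σ) fun a b => by
    obtain ⟨x, hx⟩ := exists_repN_of hK a
    obtain ⟨y, hy⟩ := exists_repN_of hK b
    refine actFun_eq hK σ (hx.mul hK hy) ?_
    rw [map_mul]
    exact (actFun_spec hK σ hx).mul hK (actFun_spec hK σ hy)
  map_one' := AddMonoidHom.ext fun φ => by
    obtain ⟨x, hx⟩ := exists_repN_of hK φ
    exact actFun_eq hK 1 hx (by rw [galF_one]; exact hx)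
  map_mul' σ τ := AddMonoidHom.ext fun φ => by
    obtain ⟨x, hx⟩ := exists_repN_of hK φ
    refine actFun_eq hK (σ * τ) hx ?_
    rw [galF_mul]
    exact actFun_spec hK σ (actFun_spec hK τ hx)

theorem actHom_apply (σ : GG) (φ : Hpar (CongruenceSubgroup.Gamma1 M) (ZMod n)) :
    actHom hK σ φ = actFun hK σ φ := rfl

end FLTAgent.DeligneSerre
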