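import Fermat.Agent.DeligneSerre.Galois.Classes
import Fermat.Agent.DeligneSerre.Galois.Series
import Fermat.Agent.DeligneSerre.Field.Target

/-!
# The Galois action on the torsion of `X₁(M)` with the congruence relation
-/

set_option autoImplicit false
set_option linter.unusedSectionVars false
set_option linter.style.haveILetI false
set_option maxHeartbeats 1000000
set_option synthInstance.maxHeartbeats 400000

noncomputable section

open ModularCurve AlgebraicCurve IsLocalRing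
open scoped MatrixGroups

namespace FLTAgent.DeligneSerre

open FLTAgent.PeriodHecke (Hpar)

local notation "LL" => AlgebraicClosure ℚ
local notation "GG" => (AlgebraicClosure ℚ ≃ₐ[ℚ] AlgebraicClosure ℚ)

variable {M : ℕ} [NeZero M] {κ : LL →+* ℂ}

/-- The field is determined by its description. -/
theorem Field1.F_eq (D : Field1 M κ) (hA : AuxLevel M) : D.F = fieldLL M κ := by
  ext x
  rw [D.mem_iff]
  exact ((field1 M κ hA).mem_iff x).symm

/-- Series in the field have coefficients fixed by an open subgroup. -/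
theorem exists_fixing_fieldLL {x : LaurentSeries LL} (hx : x ∈ fieldLL M κ) :
    ∃ L : IntermediateField ℚ LL, FiniteDimensional ℚ L ∧
      ∀ σ : GG, (∀ a ∈ L, σ a = a) → coeffMap (σ : LL →+* LL) x = x := by
  induction hx using IntermediateField.adjoin_induction with
  | mem x hx =>
    rcases hx with rfl | rfl | ⟨i, rfl⟩
    · exact ⟨⊥, inferInstance, fun σ _ => coeffMap_jqModC _⟩
    · exact ⟨⊥, inferInstance, fun σ _ => by rw [coeffMap_qExpand, coeffMap_jqModC]⟩
    · refine ⟨IntermediateField.adjoin ℚ {(xi M κ : LL)}, IntermediateField.adjoin.finiteDimensional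
        ((AlgebraicClosure.isAlgebraic ℚ).isAlgebraic _).isIntegral, fun σ hσ => ?_⟩
      refine sc_injective M ?_
      rw [← coeffMap_sc, sc_gLL,
        coeffMap_genSer (σ : LL →+* LL) (xi_prim M κ) (xi_prim M κ).pow_eq_one (Nat.coprime_one_left M)
          (Units.ext (by
            rw [pow_one]
            exact hσ _ (IntermediateField.subset_adjoin ℚ _ rfl)))]
      congr 1
      simp [GenIdx.smul]
  | algebraMap c =>
    refine ⟨IntermediateField.adjoin ℚ {c}, IntermediateField.adjoin.finiteDimensional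
      ((AlgebraicClosure.isAlgebraic ℚ).isAlgebraic c).isIntegral, fun σ hσ => ?_⟩
    rw [coeffMap_algebraMap]
    exact congrArg _ (hσ c (IntermediateField.subset_adjoin ℚ _ rfl))
  | add a b _ _ ha hb =>
    obtain ⟨L, hL, h1⟩ := ha
    obtain ⟨L', hL', h2⟩ := hb
    exact ⟨L ⊔ L', inferInstance, fun σ hσ => by
      rw [map_add, h1 σ fun t ht => hσ t (le_sup_left (b := L') ht),
        h2 σ fun t ht => hσ t (le_sup_right (a := L) ht)]⟩
  | inv a _ ha =>
    obtain ⟨L, hL, h1⟩ := ha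
    exact ⟨L, hL, fun σ hσ => by rw [map_inv₀, h1 σ hσ]⟩
  | mul a b _ _ ha hb =>
    obtain ⟨L, hL, h1⟩ := ha
    obtain ⟨L', hL', h2⟩ := hb
    exact ⟨L ⊔ L', inferInstance, fun σ hσ => by
      rw [map_mul, h1 σ fun t ht => hσ t (le_sup_left (b := L') ht),
        h2 σ fun t ht => hσ t (le_sup_right (a := L) ht)]⟩

variable {D : Field1 M κ} {n : ℕ} [NeZero n] (hK : KummerTheory D)
  {φ : Hpar (CongruenceSubgroup.Gamma1 M) (ZMod n)}

theorem coe_algebraMap_mul (a : LL) (x : D.F) :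
    ((algebraMap LL D.F a * x : D.F) : LaurentSeries LL) =
      HahnSeries.C a * (x : LaurentSeries LL) := by
  rw [IntermediateField.coe_mul, IntermediateField.coe_algebraMap_apply,
    algebraMap_laurentSeries_eq_single, HahnSeries.C_apply]

include hK in
theorem RepN.eq_zero_of_reduction (hR : ConstantReduction1 D) {u : D.F} (h : RepN D n u φ) {ℓ : ℕ}
    (hℓ : ℓ.Prime) (hℓM : ¬ ℓ ∣ M) (hℓn : ¬ ℓ ∣ n) {V : ValuationSubring LL}
    (hV : V.LiesOverPrime ℓ) (Y Y' : LaurentSeries V)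
    (he : coeffMap V.subtype Y = (u : LaurentSeries LL) * coeffMap V.subtype Y')
    (hne : coeffMap (residue V) Y' ≠ 0)
    (hred : coeffMap (residue V) Y = coeffMap (residue V) Y') : φ = 0 := by
  obtain ⟨w, a, hwa⟩ := hR ℓ hℓ hℓM V hV n hℓn u h.ne_zero h.1.2 Y Y' 1 one_ne_zero he hne
    (by rw [map_one, one_mul]; exact hred)
  have hu : u = algebraMap LL D.F a * w ^ n :=
    Subtype.ext (by rw [coe_algebraMap_mul, IntermediateField.coe_pow]; exact hwa)
  have ha : a ≠ 0 := fun h0 => h.ne_zero (by rw [hu, h0, map_zero, zero_mul])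
  have hw : w ≠ 0 := fun h0 => h.ne_zero (by rw [hu, h0, zero_pow (NeZero.ne n), mul_zero])
  exact h.unique (hu ▸ (repN_pow hK hw).smul_const hK ha)

include hK in
/-- A class has a representative which is a quotient of primitive series. -/
theorem exists_normal (hS : Scaled1 D) {x : D.F} (h : RepN D n x φ) {ℓ : ℕ} (hℓ : ℓ.Prime)
    (hℓM : ¬ ℓ ∣ M) {V : ValuationSubring LL} (hV : V.LiesOverPrime ℓ) :
    ∃ (a : LL) (x' : D.F) (y y₁ : LaurentSeries V), a ≠ 0 ∧
      (x' : LaurentSeries LL) = HahnSeries.C a * (x : LaurentSeries LL) ∧ RepN D n x' φ ∧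
      coeffMap V.subtype y = (x' : LaurentSeries LL) * coeffMap V.subtype y₁ ∧
      coeffMap (residue V) y ≠ 0 ∧ coeffMap (residue V) y₁ ≠ 0 := by
  obtain ⟨c, y, y₁, hc, he, hy, hy₁⟩ := hS ℓ hℓ hℓM V hV x h.ne_zero
  exact ⟨c, _, y, y₁, hc, coe_algebraMap_mul c x, h.smul_const hK hc,
    by rw [coe_algebraMap_mul]; exact he, hy, hy₁⟩

theorem galF_dia (γ : CongruenceSubgroup.Gamma0 M) (σ : GG) (x : D.F) :
    D.dia γ (galF D σ x) = galF D σ (D.dia γ x) :=
  Subtype.ext (D.dia_galois γ σ x)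

theorem actHom_diamond (σ : GG) (γ : CongruenceSubgroup.Gamma0 M)
    (φ : Hpar (CongruenceSubgroup.Gamma1 M) (ZMod n)) :
    actHom hK σ (diamond M γ φ) = diamond M γ (actHom hK σ φ) := by
  obtain ⟨x, hx⟩ := exists_repN_of hK φ
  refine actFun_eq hK σ (hx.dia hK γ) ?_
  rw [← galF_dia]
  exact (actFun_spec hK σ hx).dia hK γ

theorem actHom_hecke (σ : GG) (q : ℕ) [Fact q.Prime] (hq : ¬ q ∣ M)
    (φ : Hpar (CongruenceSubgroup.Gamma1 M) (ZMod n)) :
    actHom hK σ ((heckeFam1 hq).heckePar φ) = (heckeFam1 hq).heckePar (actHom hK σ φ) := by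
  haveI : NeZero q := ⟨(Fact.out : q.Prime).ne_zero⟩
  obtain ⟨x, hx⟩ := exists_repN_of hK φ
  obtain ⟨z, hz, hzr⟩ := hx.hecke hK hq
  obtain ⟨z', hz', hzr'⟩ := (actFun_spec hK σ hx).hecke hK hq
  refine actFun_eq hK σ hzr ?_
  have e : galF D σ z = z' := by
    refine Subtype.ext (qExpand_injective q ?_)
    rw [hz', coe_galF, ← coeffMap_qExpand, hz, coeffMap_phiSer, galF_dia, coe_galF, coe_galF,
      show Units.map (σ : LL →+* LL).toMonoidHom (xi q κ) = xi q κ ^ galExp q κ σ from map_xi q κ σ,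
      phiSer_pow_gen q (xi_prim q κ).pow_eq_one (galExp_coprime q κ σ)]
  rw [e]
  exact hzr'

theorem actHom_inertia (hG : GoodReduction1 D) {ℓ : ℕ} (hℓ : ℓ.Prime) (hℓMn : ¬ ℓ ∣ M * n)
    {V : ValuationSubring LL} (hV : V.LiesOverPrime ℓ) {σ : GG} (hσ : σ ∈ V.inertiaSubgroupIn ℚ) :
    actHom (n := n) hK σ = 1 := by
  refine AddMonoidHom.ext fun φ => ?_
  show actHom hK σ φ = φ
  have hℓM : ¬ ℓ ∣ M := fun h => hℓMn (h.mul_right n)
  have hℓn : ¬ ℓ ∣ n := fun h => hℓMn (h.mul_left M)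
  obtain ⟨x₀, hx₀⟩ := exists_repN_of hK φ
  obtain ⟨-, x, y, y₁, -, -, hx, he, hy, hy₁⟩ := exists_normal hK hG.1 hx₀ hℓ hℓM hV
  obtain ⟨hd, hred⟩ := residue_decHom_inertia V hσ
  rw [← sub_eq_zero]
  refine ((actFun_spec hK σ hx).div hK hx).eq_zero_of_reduction hK hG.2 hℓ hℓM hℓn hV
    (coeffMap (decHom V hd) y * y₁) (coeffMap (decHom V hd) y₁ * y) ?_ ?_ ?_
  · rw [map_mul, map_mul, coeffMap_decHom, coeffMap_decHom, IntermediateField.coe_div, coe_galF, he,
      map_mul]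
    field_simp [show (x : LaurentSeries LL) ≠ 0 from fun e => hx.ne_zero (Subtype.ext e)]
  · rw [map_mul, coeffMap_coeffMap, hred]
    exact mul_ne_zero hy₁ hy
  · rw [map_mul, map_mul, coeffMap_coeffMap, coeffMap_coeffMap, hred, mul_comm]

theorem actHom_frobenius (hG : GoodReduction1 D) (ℓ : ℕ) [Fact ℓ.Prime] (hℓ : ¬ ℓ ∣ M)
    (hℓn : ¬ ℓ ∣ n) {V : ValuationSubring LL} (hV : V.LiesOverPrime ℓ) {σ : GG}
    (hσ : V.IsFrobeniusAt σ ℓ) (φ : Hpar (CongruenceSubgroup.Gamma1 M) (ZMod n)) :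
    (heckeFam1 hℓ).heckePar φ = actHom hK σ φ +
      ℓ • diamond M (gammaLower ℓ (coprime_of_not_dvd hℓ)) (actHom hK σ⁻¹ φ) := by
  haveI : NeZero ℓ := ⟨(Fact.out : ℓ.Prime).ne_zero⟩
  haveI : CharP (ResidueField V) ℓ := FLTAgent.FrobTrace.charP_residueField hV
  set γ := gammaLower ℓ (coprime_of_not_dvd hℓ)
  obtain ⟨x₀, hx₀⟩ := exists_repN_of hK φ
  obtain ⟨-, x, y, y₁, -, -, hx, he, hy, hy₁⟩ := exists_normal hK hG.1 hx₀ Fact.out hℓ hV
  obtain ⟨b, d, w, w₁, hb, hdb, hd, hew, hw, hw₁⟩ :=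
    exists_normal hK hG.1 (hx.dia hK γ) Fact.out hℓ hV
  obtain ⟨z, hz, hzr⟩ := hx.hecke hK hℓ
  obtain ⟨z', hzb, hzr'⟩ : ∃ z' : D.F, (z' : LaurentSeries LL) = HahnSeries.C b * (z : LaurentSeries LL) ∧
      RepN D n z' ((heckeFam1 hℓ).heckePar φ) :=
    ⟨_, coe_algebraMap_mul b z, hzr.smul_const hK hb⟩
  obtain ⟨ω, hω, hωp, hω1⟩ := exists_root_in V ℓ (xi ℓ κ) (xi_prim ℓ κ)
  obtain ⟨Y, hY⟩ := exists_descend_phiSer ℓ hωp y w
  obtain ⟨Y₁, hY₁⟩ := exists_descend_phiSer ℓ hωp y₁ w₁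
  have hYe : coeffMap V.subtype Y = (z' : LaurentSeries LL) * coeffMap V.subtype Y₁ := by
    refine qExpand_injective ℓ ?_
    rw [map_mul, ← coeffMap_qExpand, ← coeffMap_qExpand, hY, hY₁, coeffMap_phiSer, coeffMap_phiSer,
      hω, he, hew, phiSer_mul]
    congr 1
    rw [hdb, hzb, map_mul, hz, qExpand_C, phiSer, phiSer, map_mul, qExpand_C, mul_assoc]
  have hσd := hσ.mem_decompositionSubgroup
  set s := decHom V hσd
  set t := decHom V (inv_mem hσd)
  have hs : (residue V).comp s = (frobenius (ResidueField V) ℓ).comp (residue V) :=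
    residue_decHom_frobenius V ℓ hσ
  have ht : (frobenius (ResidueField V) ℓ).comp ((residue V).comp t) = residue V :=
    residue_decHom_frobenius_inv V ℓ hσ
  rw [← actHom_diamond, ← sub_eq_zero]
  refine (hzr'.div hK ((actFun_spec hK σ hx).mul hK
    ((actFun_spec hK σ⁻¹ hd).pow hK ℓ))).eq_zero_of_reduction hK hG.2 Fact.out hℓ hℓn hV
    (Y * (coeffMap s y₁ * coeffMap t w₁ ^ ℓ)) (Y₁ * (coeffMap s y * coeffMap t w ^ ℓ)) ?_ ?_ ?_
  · have h1 : coeffMap (σ : LL →+* LL) (x : LaurentSeries LL) ≠ 0 := fun e =>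
      (actFun_spec hK σ hx).ne_zero (Subtype.ext e)
    have h2 : coeffMap ((σ⁻¹ : GG) : LL →+* LL) (d : LaurentSeries LL) ≠ 0 := fun e =>
      (actFun_spec hK σ⁻¹ hd).ne_zero (Subtype.ext e)
    simp only [map_mul, map_pow, s, t, coeffMap_decHom, hYe, he, hew, IntermediateField.coe_div,
      IntermediateField.coe_mul, IntermediateField.coe_pow, coe_galF]
    field_simp
    ring
  · exact red_ne_zero (residue V) ℓ hω1 s t hs ht hY₁ hy₁ hw₁ hy hw
  · exact red_congruence (residue V) ℓ hω1 s t hs ht hY hY₁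

theorem exists_level (hA : AuxLevel M) : ∃ L : IntermediateField ℚ LL, FiniteDimensional ℚ L ∧
    ∀ σ : GG, (∀ a ∈ L, σ a = a) → actHom (n := n) hK σ = 1 := by
  classical
  haveI : Finite (Additive (CongruenceSubgroup.Gamma1 M) →+ ZMod n) :=
    Tors.finite_hom (ZMod n)
  haveI := Fintype.ofFinite (Hpar (CongruenceSubgroup.Gamma1 M) (ZMod n))
  have key : ∀ s : Finset (Hpar (CongruenceSubgroup.Gamma1 M) (ZMod n)),
      ∃ L : IntermediateField ℚ LL, FiniteDimensional ℚ L ∧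
        ∀ σ : GG, (∀ a ∈ L, σ a = a) → ∀ φ ∈ s, actHom hK σ φ = φ := fun s => by
    induction s using Finset.induction_on with
    | empty => exact ⟨⊥, inferInstance, by simp⟩
    | insert φ s _ ih =>
      obtain ⟨L, hL, h1⟩ := ih
      obtain ⟨x, hx⟩ := exists_repN_of hK φ
      obtain ⟨L', hL', h2⟩ := exists_fixing_fieldLL (show (x : LaurentSeries LL) ∈ fieldLL M κ from
        D.F_eq hA ▸ x.2)
      refine ⟨L ⊔ L', inferInstance, fun σ hσ ψ hψ => ?_⟩
      rcases Finset.mem_insert.1 hψ with rfl | hψ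
      · refine actFun_eq hK σ hx ?_
        rwa [show galF D σ x = x from
          Subtype.ext (h2 σ fun t ht => hσ t (le_sup_right (a := L) ht))]
      · exact h1 σ (fun t ht => hσ t (le_sup_left (b := L') ht)) ψ hψ
  obtain ⟨L, hL, h⟩ := key Finset.univ
  exact ⟨L, hL, fun σ hσ => AddMonoidHom.ext fun φ => h σ hσ φ (Finset.mem_univ _)⟩

/-- Package C3. -/
theorem targetGaloisTorsion : TargetGaloisTorsion := by
  intro M _ κ D hA hK hG n hn
  haveI : NeZero n := ⟨hn⟩
  exact ⟨{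
    act := actHom hK
    level := exists_level hK hA
    comm_diamond := actHom_diamond hK
    comm_hecke := fun σ q _ hq _ φ => actHom_hecke hK σ q hq φ
    inertia := fun ℓ hℓ hℓMn V hV σ hσ => actHom_inertia hK hG hℓ hℓMn hV hσ
    frobenius := fun ℓ _ hℓ hℓn V hV σ hσ φ => actHom_frobenius hK hG ℓ hℓ hℓn hV hσ φ }⟩

end FLTAgent.DeligneSerre
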