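import Fermat.Agent.DeligneSerre.Field.Bridge

/-!
# The operator `T_q` on functions of level `Γ₁(M)` with roots and characters

For a function `x` with an `n`-th root transforming by `χ`, the product of its translates by the
representatives of `T_q` has a root transforming by the Hecke transform of `χ`, and its expansion
is the product of the translates of the series of `x`.
-/

set_option autoImplicit false
set_option linter.unusedSectionVars false
set_option linter.style.haveILetI false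
set_option maxHeartbeats 800000
set_option synthInstance.maxHeartbeats 400000

noncomputable section

open UpperHalfPlane hiding I I_re I_im
open Filter Topology Complex Function FLTAgent.ModEq FLTAgent.GoodModel ModularCurve
open scoped MatrixGroups Manifold

namespace FLTAgent.DeligneSerre

open FLTAgent.X0Fn (Hol PerL expL comp_smul_mdiff iota qh)
open FLTAgent.PeriodHecke (Hpar mat mat_one HeckeIdx heckeRep idxSome)

local notation "LL" => AlgebraicClosure ℚ
local notation "M2" => Matrix (Fin 2) (Fin 2) ℤ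
local notation "Cx" => Additive ℂˣ

/-- The series of the product of the translates: `z (t^{q²}) ∏ⱼ y (ω^j t)`. -/
def phiSer {R : Type*} [CommRing R] (q : ℕ) [NeZero q] (ω : Rˣ) (y w : LaurentSeries R) :
    LaurentSeries R :=
  qExpand R (q * q) w * ∏ j : ZMod q, twist (ω ^ j.val) y

/-! ### Fractional linear maps of integral matrices -/

/-- Numerator. -/
def mnum (A : M2) (z : ℂ) : ℂ := (A 0 0 : ℂ) * z + (A 0 1 : ℂ)

/-- Denominator. -/
def mden (A : M2) (z : ℂ) : ℂ := (A 1 0 : ℂ) * z + (A 1 1 : ℂ)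

/-- The value. -/
def mob (A : M2) (z : ℂ) : ℂ := mnum A z / mden A z

theorem mden_mul {A B : M2} {z : ℂ} (hB : mden B z ≠ 0) :
    mden (A * B) z = mden B z * mden A (mob B z) := by
  simp only [mden, mob, mnum, Matrix.mul_apply, Fin.sum_univ_two] at hB ⊢
  push_cast
  field_simp
  ring

theorem mnum_mul {A B : M2} {z : ℂ} (hB : mden B z ≠ 0) :
    mnum (A * B) z = mden B z * mnum A (mob B z) := by
  simp only [mden, mob, mnum, Matrix.mul_apply, Fin.sum_univ_two] at hB ⊢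
  push_cast
  field_simp
  ring

theorem mob_mul {A B : M2} {z : ℂ} (hB : mden B z ≠ 0) : mob (A * B) z = mob A (mob B z) := by
  rw [mob, mden_mul hB, mnum_mul hB, mul_div_mul_left _ _ hB]
  rfl

theorem mden_sl_ne_zero (γ : SL(2, ℤ)) (z : ℍ) : mden (γ : M2) z ≠ 0 := den_ne_zero γ z

theorem mob_sl (γ : SL(2, ℤ)) (z : ℍ) : mob (γ : M2) z = ((γ • z : ℍ) : ℂ) :=
  (coe_sl_smul' γ z).symm

/-! ### Expansions after affine substitutions -/

/-- `exp (2πi B / n)`. -/
def expU (B : ℤ) (n : ℕ) : ℂˣ :=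
  Units.mk0 (Complex.exp (2 * Real.pi * I * B / (n : ℕ))) (Complex.exp_ne_zero _)

theorem hasExp_affPt' (A : ℕ) (B : ℤ) (D : ℕ) [NeZero A] [NeZero D] {l : ℕ} [NeZero l] {φ : ℍ → ℂ}
    {F : LaurentSeries ℂ} (hφ : HasExp l φ F) :
    HasExp (D * l) (φ ∘ affPt A B D) (substHom (expU B (D * l)) A F) := by
  have : NeZero (D * l) := ⟨Nat.mul_ne_zero (NeZero.ne D) (NeZero.ne l)⟩
  exact hφ.comp_affine A _ _ (fun τ ↦ by rw [qp_affPt, expU, Units.val_mk0]) (tendsto_affPt A B D)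

theorem expU_pow_mul (j q M : ℕ) [NeZero q] [NeZero M] :
    expU (j : ℤ) (q * M) ^ M = zetaN q ^ j := by
  refine Units.ext ?_
  rw [Units.val_pow_eq_pow_val, Units.val_pow_eq_pow_val, expU, zetaN, Units.val_mk0, Units.val_mk0,
    ← Complex.exp_nat_mul, ← Complex.exp_nat_mul]
  congr 1
  have : (q : ℂ) ≠ 0 := Nat.cast_ne_zero.mpr (NeZero.ne q)
  have : (M : ℂ) ≠ 0 := Nat.cast_ne_zero.mpr (NeZero.ne M)
  push_cast
  field_simp

theorem substHom_qExpand_expU (j q M : ℕ) [NeZero q] [NeZero M] (y : LaurentSeries ℂ) :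
    substHom (expU (j : ℤ) (q * M)) 1 (qExpand ℂ M y) = qExpand ℂ M (twist (zetaN q ^ j) y) := by
  rw [substHom_apply, qExpand_one_apply, twist_qExpand, expU_pow_mul]

theorem expU_zero (n : ℕ) : expU 0 n = 1 := Units.ext (by simp [expU])

theorem periodic_comp_ofComplex {h : ℝ} {f : ℍ → ℂ} (hf : ∀ τ : ℍ, f (h +ᵥ τ) = f τ) :
    Periodic (f ∘ ofComplex) h := fun z => by
  simp only [comp_apply]
  by_cases hz : 0 < z.im
  · have hz1 : 0 < (z + (h : ℂ)).im := by simpa using hz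
    rw [ofComplex_apply_of_im_pos hz, ofComplex_apply_of_im_pos hz1, ← hf ⟨z, hz⟩]
    congr 1
    apply UpperHalfPlane.ext
    simp [add_comm]
  · have hz1 : (z + (h : ℂ)).im ≤ 0 := by simpa using not_lt.mp hz
    rw [ofComplex_apply_of_im_nonpos hz1, ofComplex_apply_of_im_nonpos (not_lt.mp hz)]

theorem mem_PerL_of_meroInf {M : ℕ} [NeZero M] {f : ℍ → ℂ} (hf : MDiff f)
    (hper : ∀ τ : ℍ, f ((M : ℝ) +ᵥ τ) = f τ) (hmero : MeroInf f) : f ∈ PerL (M : ℝ) := by
  have hH : GeOrd (HahnSeries.single (1 : ℤ) (1 : ℂ)) 1 := fun k hk =>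
    HahnSeries.coeff_single_of_ne hk.ne
  obtain ⟨m, hm⟩ := hmero.exists_pow_bounded
    (ψ := fun τ => 1 * qp M τ ^ (1 : ℤ)) (HasExp.single 1 1) hH
  refine ⟨m, hf.mul (X0Fn.mdiff_qh.pow m), ?_, ?_⟩
  · refine periodic_comp_ofComplex fun τ => ?_
    simp only [Pi.mul_apply, Pi.pow_apply, hper]
    congr 2
    have h := X0Fn.periodic_qh (h := (M : ℝ)) (τ : ℂ)
    simp only [comp_apply, ofComplex_apply] at h
    rw [← h]
    have hz1 : 0 < ((τ : ℂ) + ((M : ℝ) : ℂ)).im := by simpa using τ.im_pos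
    rw [ofComplex_apply_of_im_pos hz1]
    congr 1
    apply UpperHalfPlane.ext
    simp [add_comm]
  · refine (hm m le_rfl).congr_left fun τ => ?_
    simp only [Pi.mul_apply, Pi.pow_apply, one_mul, zpow_one]
    rfl

/-! ### The translates -/

variable {M q : ℕ} [NeZero M] [Fact q.Prime] (hq : ¬ q ∣ M)

/-- The point of a representative. -/
def heckePt (i : HeckeIdx M q) (τ : ℍ) : ℍ :=
  haveI : NeZero q := ⟨(Fact.out : q.Prime).ne_zero⟩
  match i.1 with
  | none => (gammaLower q (coprime_of_not_dvd hq) : SL(2, ℤ)) • affPt q 0 1 τ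
  | some j => affPt 1 (j.val : ℤ) q τ

theorem heckePt_some [NeZero q] (j : ZMod q) (τ : ℍ) :
    heckePt hq (idxSome M q j) τ = affPt 1 (j.val : ℤ) q τ := rfl

theorem heckePt_none [NeZero q] (h : (none : Option (ZMod q)) = none → ¬ q ∣ M) (τ : ℍ) :
    heckePt hq ⟨none, h⟩ τ = (gammaLower q (coprime_of_not_dvd hq) : SL(2, ℤ)) • affPt q 0 1 τ :=
  rfl

theorem mob_heckeRep1 (i : HeckeIdx M q) (τ : ℍ) :
    mden (heckeRep1 hq i) τ ≠ 0 ∧ ((heckePt hq i τ : ℍ) : ℂ) = mob (heckeRep1 hq i) τ := by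
  haveI : NeZero q := ⟨(Fact.out : q.Prime).ne_zero⟩
  have hq0 : (q : ℂ) ≠ 0 := Nat.cast_ne_zero.mpr (NeZero.ne q)
  rcases HeckeIdx.cases M q i with ⟨h, rfl⟩ | ⟨j, rfl⟩
  · have hd : mden !![(q : ℤ), 0; 0, 1] τ ≠ 0 := by simp [mden]
    have hm : mob !![(q : ℤ), 0; 0, 1] τ = ((affPt q 0 1 τ : ℍ) : ℂ) := by
      simp [mob, mnum, mden, coe_affPt]
    show mden (mat (gammaLower q (coprime_of_not_dvd hq)) * !![(q : ℤ), 0; 0, 1]) τ ≠ 0 ∧ _
    refine ⟨?_, ?_⟩
    · rw [mden_mul hd, hm]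
      exact mul_ne_zero hd (mden_sl_ne_zero _ _)
    · rw [heckePt_none, show heckeRep1 hq ⟨none, h⟩ =
        mat (gammaLower q (coprime_of_not_dvd hq)) * !![(q : ℤ), 0; 0, 1] from rfl, mob_mul hd, hm,
        ← mob_sl]
      rfl
  · have e : heckeRep1 hq (idxSome M q j) = !![1, (j.val : ℤ); 0, (q : ℤ)] := by
      rw [heckeRep1, show corr1 hq (idxSome M q j) = 1 from rfl, mat_one, one_mul]
      rfl
    rw [e, heckePt_some]
    refine ⟨by simp [mden, hq0], ?_⟩
    simp [mob, mnum, mden, coe_affPt]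

theorem heckePt_rel (δ : CongruenceSubgroup.Gamma1 M) (i : HeckeIdx M q) (τ : ℍ) :
    heckePt hq i ((δ : SL(2, ℤ)) • τ) =
      ((heckeFam1 hq).coc δ i : SL(2, ℤ)) • heckePt hq ((heckeFam1 hq).next δ i) τ := by
  apply UpperHalfPlane.ext
  have hrel := (heckeFam1 hq).rel δ i
  obtain ⟨hd, hj⟩ := mob_heckeRep1 hq ((heckeFam1 hq).next δ i) τ
  rw [(mob_heckeRep1 hq i _).2, ← mob_sl, ← mob_mul (mden_sl_ne_zero _ _), ← mob_sl, hj,
    ← mob_mul hd]
  exact congrArg (fun A => mob A (τ : ℂ)) hrel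

/-- The product of a function over the translates. -/
def heckeFn (f : ℍ → ℂ) (τ : ℍ) : ℂ := ∏ i, f (heckePt hq i τ)

theorem heckeFn_eq_prod (f : ℍ → ℂ) :
    heckeFn hq f = ∏ i, fun τ => f (heckePt hq i τ) :=
  funext fun τ => by rw [heckeFn, Finset.prod_apply]

theorem hasChar1_heckeFn {f : ℍ → ℂ} {χ : Additive (CongruenceSubgroup.Gamma1 M) →+ Cx}
    (h : HasChar1 f χ) : HasChar1 (heckeFn hq f) ((heckeFam1 hq).hecke χ) := by
  intro γ τ
  have hc : ∀ i, f (heckePt hq i ((γ : SL(2, ℤ)) • τ)) =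
      ((χ (Additive.ofMul ((heckeFam1 hq).coc γ i))).toMul : ℂˣ) *
        f (heckePt hq ((heckeFam1 hq).next γ i) τ) := fun i => by
    rw [heckePt_rel]; exact h _ _
  simp only [heckeFn, hc, Finset.prod_mul_distrib]
  congr 1
  · rw [PeriodHecke.HeckeFamily.hecke_apply, toMul_sum, Units.coe_prod]
  · exact Equiv.prod_comp ((heckeFam1 hq).perm γ) fun i => f (heckePt hq i τ)

theorem hasChar1_of_invariant {f : ℍ → ℂ}
    (h : ∀ γ ∈ CongruenceSubgroup.Gamma1 M, ∀ τ, f (γ • τ) = f τ) :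
    HasChar1 f (0 : Additive (CongruenceSubgroup.Gamma1 M) →+ Cx) := fun γ τ => by
  rw [AddMonoidHom.zero_apply, toMul_zero, Units.val_one, one_mul]
  exact h _ γ.2 τ

theorem mdiff_comp_heckePt {f : ℍ → ℂ} (hf : MDiff f) (i : HeckeIdx M q) :
    MDiff fun τ => f (heckePt hq i τ) := by
  haveI : NeZero q := ⟨(Fact.out : q.Prime).ne_zero⟩
  rcases HeckeIdx.cases M q i with ⟨h, rfl⟩ | ⟨j, rfl⟩
  · exact mdiff_comp_affPt q 0 1
      (comp_smul_mdiff hf (gammaLower q (coprime_of_not_dvd hq) : SL(2, ℤ)))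
  · exact mdiff_comp_affPt 1 (j.val : ℤ) q hf

theorem meroInf_comp_affPt_smul {f : ℍ → ℂ} (hf : ∀ g : SL(2, ℤ), (fun τ => f (g • τ)) ∈ PerL (M : ℝ))
    (h : SL(2, ℤ)) (A₀ D₀ : ℕ) [NeZero A₀] [NeZero D₀] (g : SL(2, ℤ)) :
    MeroInf fun τ => f (h • affPt A₀ 0 D₀ (g • τ)) := by
  obtain ⟨A, D, B, δ, hA, hD, -, he⟩ := exists_affPt_smul A₀ D₀ g
  simp only [he, ← mul_smul]
  have hE := hasExp_affPt' A B D (Mazur.hasExp_expL ⟨_, hf (h * δ)⟩)
  haveI : NeZero (D * M) := ⟨Nat.mul_ne_zero (NeZero.ne D) (NeZero.ne M)⟩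
  exact meroInf_of_hasExp hE

theorem meroInf_comp_heckePt {f : ℍ → ℂ} (hf : ∀ g : SL(2, ℤ), (fun τ => f (g • τ)) ∈ PerL (M : ℝ))
    (i : HeckeIdx M q) (g : SL(2, ℤ)) : MeroInf fun τ => f (heckePt hq i (g • τ)) := by
  haveI : NeZero q := ⟨(Fact.out : q.Prime).ne_zero⟩
  rcases HeckeIdx.cases M q i with ⟨h, rfl⟩ | ⟨j, rfl⟩
  · simp only [heckePt_none]
    exact meroInf_comp_affPt_smul hf _ q 1 g
  · simp only [heckePt_some]
    have e : ∀ τ : ℍ, affPt 1 (j.val : ℤ) q (g • τ) =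
        (1 : SL(2, ℤ)) • affPt 1 0 q ((ModularGroup.T ^ (j.val : ℤ) * g) • τ) := fun τ => by
      rw [one_smul, mul_smul, UpperHalfPlane.modular_T_zpow_smul]
      apply UpperHalfPlane.ext
      simp [coe_affPt, add_comm, -ZMod.natCast_val]
    simp only [e]
    exact meroInf_comp_affPt_smul hf 1 1 q _

theorem heckeFn_mem_W1 {f : ℍ → ℂ} (hf : f ∈ W1 M) : heckeFn hq f ∈ W1 M := by
  have hinv : ∀ γ ∈ CongruenceSubgroup.Gamma1 M, ∀ τ,
      heckeFn hq f (γ • τ) = heckeFn hq f τ := fun γ hγ τ => by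
    have h := hasChar1_heckeFn hq (hasChar1_of_invariant hf.2.1) ⟨γ, hγ⟩ τ
    rwa [map_zero, AddMonoidHom.zero_apply, toMul_zero, Units.val_one, one_mul] at h
  have hmd : MDiff (heckeFn hq f) := by
    rw [heckeFn_eq_prod]
    exact Subalgebra.prod_mem Hol fun i _ => mdiff_comp_heckePt hq hf.1 i
  refine ⟨hmd, hinv, fun g => ?_⟩
  refine mem_PerL_of_meroInf (comp_smul_mdiff hmd g) (fun τ => ?_) ?_
  · rw [Mazur.smul_vadd, ← mul_smul,
      show g * ModularGroup.T ^ (M : ℤ) = (g * ModularGroup.T ^ (M : ℤ) * g⁻¹) * g by group,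
      mul_smul]
    refine hinv _ ?_ _
    have h := (CongruenceSubgroup.Gamma_normal M).conj_mem _
      (CongruenceSubgroup.ModularGroup_T_pow_mem_Gamma M M dvd_rfl) g
    obtain ⟨h1, -, h3, h4⟩ := CongruenceSubgroup.Gamma_mem.mp h
    exact (CongruenceSubgroup.Gamma1_mem M _).mpr ⟨h1, h4, h3⟩
  · classical
    have key : ∀ s : Finset (HeckeIdx M q),
        MeroInf (∏ i ∈ s, fun τ => f (heckePt hq i (g • τ))) := fun s => by
      induction s using Finset.induction_on with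
      | empty => rw [Finset.prod_empty]; exact MeroInf.const 1
      | insert a s ha ih =>
        rw [Finset.prod_insert ha]
        exact (meroInf_comp_heckePt hq hf.2.2 a g).mul ih
    have := key Finset.univ
    rwa [show (∏ i, fun τ => f (heckePt hq i (g • τ))) = fun τ => heckeFn hq f (g • τ) from
      funext fun τ => by rw [heckeFn, Finset.prod_apply]] at this

theorem prod_heckeIdx {A : Type*} [CommMonoid A] [NeZero q] (F : HeckeIdx M q → A) :
    ∏ i, F i = F ⟨none, fun _ => hq⟩ * ∏ j, F (idxSome M q j) := by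
  classical
  let e : Option (ZMod q) ≃ HeckeIdx M q :=
    { toFun := fun o => ⟨o, fun _ => hq⟩
      invFun := fun i => i.1
      left_inv := fun _ => rfl
      right_inv := fun _ => rfl }
  rw [← Equiv.prod_comp e F, Fintype.prod_option]
  rfl

theorem expW1_hasExp (a : W1 M) : HasExp M (a : ℍ → ℂ) (expW1 M a) :=
  Mazur.hasExp_expL (Subalgebra.inclusion W1_le_PerL a)

theorem expW1_ne_zero {a : W1 M} (ha : a ≠ 0) : expW1 M a ≠ 0 := by
  rw [← Tors.expW_ofW1]
  exact Tors.expW_ne_zero (Tors.ofW1_ne_zero ha)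

variable {κ : LL →+* ℂ}

/-- The product of the translates of a function with a root. -/
theorem exists_hecke [NeZero q] (D : Field1 M κ) {n : ℕ} {x : D.F}
    {χ : Additive (CongruenceSubgroup.Gamma1 M) →+ Cx}
    (hx : IsCharFn1 κ n (x : LaurentSeries LL) χ) :
    ∃ z : D.F, qExpand LL q (z : LaurentSeries LL) = phiSer q (xi q κ) (x : LaurentSeries LL)
        (D.dia (gammaLower q (coprime_of_not_dvd hq)) x : LaurentSeries LL) ∧
      IsCharFn1 κ n (z : LaurentSeries LL) ((heckeFam1 hq).hecke χ) := by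
  classical
  obtain ⟨R, a, b, hab, hR, hc⟩ := hx
  set γ := gammaLower q (coprime_of_not_dvd hq)
  obtain ⟨a', b', ha', hb', hb'0, hab'⟩ := D.dia_represents γ x a b hab
  obtain ⟨hb0, hab⟩ := hab
  haveI : NeZero (q * M) := ⟨Nat.mul_ne_zero (NeZero.ne q) (NeZero.ne M)⟩
  -- expansions of the factors
  have hsome : ∀ (c : W1 M) (j : ZMod q), HasExp (q * M)
      (fun τ => (c : ℍ → ℂ) (heckePt hq (idxSome M q j) τ))
      (substHom (expU (j.val : ℤ) (q * M)) 1 (expW1 M c)) := fun c j => by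
    simp only [heckePt_some]
    exact hasExp_affPt' 1 (j.val : ℤ) q (expW1_hasExp c)
  have hnone : ∀ (c c' : W1 M), (∀ τ, (c' : ℍ → ℂ) τ = (c : ℍ → ℂ) ((γ : SL(2, ℤ)) • τ)) →
      HasExp (q * M) (fun τ => (c : ℍ → ℂ) (heckePt hq ⟨none, fun _ => hq⟩ τ))
        (qExpand ℂ (q * q) (expW1 M c')) := fun c c' h => by
    have h1 : HasExp (1 * M) ((c' : ℍ → ℂ) ∘ affPt q 0 1)
        (substHom (expU 0 (1 * M)) q (expW1 M c')) := hasExp_affPt' q 0 1 (expW1_hasExp c')
    rw [expU_zero, substHom_one] at h1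
    haveI : NeZero (1 * M) := by rw [one_mul]; infer_instance
    have h2 := hasExp_refine h1 q (q * M) (by ring)
    rw [qExpand_qExpand] at h2
    simpa only [heckePt_none, comp_def, h] using h2
  -- the products
  let E : (c c' : W1 M) → LaurentSeries ℂ := fun c c' =>
    qExpand ℂ (q * q) (expW1 M c') * ∏ j : ZMod q,
      substHom (expU (j.val : ℤ) (q * M)) 1 (expW1 M c)
  have hE : ∀ (c c' : W1 M), (∀ τ, (c' : ℍ → ℂ) τ = (c : ℍ → ℂ) ((γ : SL(2, ℤ)) • τ)) →
      E c c' = qExpand ℂ q (expW1 M ⟨_, heckeFn_mem_W1 hq c.2⟩) := fun c c' h => by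
    refine (?_ : HasExp (q * M) (heckeFn hq (c : ℍ → ℂ)) (E c c')).unique
      (hasExp_refine (expW1_hasExp _) q (q * M) (mul_comm M q))
    have hp : ∀ s : Finset (ZMod q), HasExp (q * M)
        (∏ j ∈ s, fun τ => (c : ℍ → ℂ) (heckePt hq (idxSome M q j) τ))
        (∏ j ∈ s, substHom (expU (j.val : ℤ) (q * M)) 1 (expW1 M c)) := fun s => by
      induction s using Finset.induction_on with
      | empty => rw [Finset.prod_empty, Finset.prod_empty]; exact HasExp.one
      | insert j s hj ih =>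
        rw [Finset.prod_insert hj, Finset.prod_insert hj]
        exact (hsome c j).mul ih
    rw [heckeFn_eq_prod, prod_heckeIdx hq]
    exact (hnone c c' h).mul (hp _)
  set X := phiSer q (xi q κ) (x : LaurentSeries LL) (D.dia γ x : LaurentSeries LL) with hX
  set A : W1 M := ⟨_, heckeFn_mem_W1 hq a.2⟩
  set B : W1 M := ⟨_, heckeFn_mem_W1 hq b.2⟩
  have hrel : qExpand ℂ M (coeffMap κ X) * E b b' = E a a' := by
    simp only [X, E, phiSer, map_mul, map_prod, coeffMap_qExpand]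
    rw [mul_mul_mul_comm, ← Finset.prod_mul_distrib]
    congr 1
    · rw [qExpand_qExpand, qExpand_congr (mul_comm M (q * q)), ← qExpand_qExpand, ← map_mul, ← hab']
      rfl
    · refine Finset.prod_congr rfl fun j _ => ?_
      rw [coeffMap_twist, ← hab, map_mul]
      congr 1
      rw [iota, RingHom.comp_apply, substHom_qExpand_expU, map_pow,
        show Units.map (κ.toMonoidHom) (xi q κ) = zetaN q from Units.ext (kappa_xi q κ)]
  have hB0 : B ≠ 0 := fun h0 => by
    have h1 : E b b' = 0 := by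
      rw [hE b b' hb', show (⟨_, heckeFn_mem_W1 hq b.2⟩ : W1 M) = 0 from h0, map_zero, map_zero]
    simp only [E, mul_eq_zero, Finset.prod_eq_zero_iff] at h1
    rcases h1 with h1 | ⟨j, -, h1⟩
    · exact expW1_ne_zero hb'0 ((map_eq_zero_iff _ (qExpand_injective _)).1 h1)
    · exact expW1_ne_zero hb0 ((map_eq_zero_iff _ (substHom_injective _ 1)).1 h1)
  rw [hE a a' ha', hE b b' hb'] at hrel
  have hcoef : ∀ k : ℤ, ¬ (q : ℤ) ∣ k → X.coeff k = 0 := fun k hk => by
    have h1 : qExpand ℂ M (coeffMap κ X) = qExpand ℂ q (expW1 M A / expW1 M B) := by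
      rw [map_div₀, eq_div_iff (fun h => expW1_ne_zero hB0
        ((map_eq_zero_iff _ (qExpand_injective q)).1 h))]
      exact hrel
    have h2 := congrArg (fun F : LaurentSeries ℂ => F.coeff ((M : ℤ) * k)) h1
    have hnd : ¬ (q : ℤ) ∣ (M : ℤ) * k := fun h =>
      ((Nat.prime_iff_prime_int.mp (Fact.out : q.Prime)).dvd_or_dvd h).elim
        (fun h' => hq (Int.natCast_dvd_natCast.1 h')) hk
    simp only [qExpand_coeff_mul, qExpand_coeff_of_not_dvd q _ hnd, coeffMap_coeff] at h2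
    exact (map_eq_zero κ).1 h2
  obtain ⟨z, hz⟩ := Mazur.exists_qExpand_eq (N := q) hcoef
  have hrep : Represents κ z A B := by
    refine ⟨hB0, qExpand_injective q ?_⟩
    rw [map_mul, ← hrel, ← hz, coeffMap_qExpand]
    congr 1
    rw [iota, RingHom.comp_apply, qExpand_qExpand, qExpand_qExpand]
    exact qExpand_congr (mul_comm q M) _
  let R' : Hol := ⟨heckeFn hq (R : ℍ → ℂ), by
    rw [heckeFn_eq_prod]
    exact Subalgebra.prod_mem Hol fun i _ => mdiff_comp_heckePt hq R.2 i⟩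
  refine ⟨⟨z, (D.mem_iff z).2 ⟨A, B, hrep⟩⟩, hz, R', A, B, hrep, ?_, hasChar1_heckeFn hq hc⟩
  funext τ
  show heckeFn hq (R : ℍ → ℂ) τ ^ n =
    heckeFn hq (a : ℍ → ℂ) τ * heckeFn hq (b : ℍ → ℂ) τ ^ (n - 1)
  simp only [heckeFn, ← Finset.prod_pow, ← Finset.prod_mul_distrib]
  exact Finset.prod_congr rfl fun i _ => congrFun hR _

end FLTAgent.DeligneSerre
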